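import Mathlib
import Fermat.Prelude.Def_EllipticCurve_FrobeniusTrace
import Fermat.Agent.S55.G.Rec.Spec2
import Fermat.Agent.S55.G.Rec.ReciprocityFull
import Fermat.Agent.S55.G.Rec.Loc.Final

/-!
# Row LT, tower CFT (architect helper53), OFF-MAIN: ARTIN RECIPROCITY for finite-order characters

Consumers: A2 (seed over `E`: the quartic character `θ` of `Gal(M/E')` and `η_{E'/E}` as Hecke
characters, helper950 / helper38), T3 (Hecke `L`-functions of these characters, helper14),
T6/T7 (`η_{E/F}`, helper797 / helper22).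

## Route
Global class field theory IS ON MAIN, in the closure of S55 (plain modules
`Fermat/Agent/S55/G/**`): first inequality (general form `FI.firstIneq_card_of`, with the factor
`infDegProd`), analytic second inequality (`H963`), Hasse principle and the RECIPROCITY LAW
`Fermat.Agent.S55.G.Rec.reciprocityFull I p : ReciprocitySpec I p`
(`∑_v inv_v (x_v) = 0` for `x ∈ Br(K)(p)`, `K = ℚ̄^U` ANY number field) for every ODD prime `p`,
with the local invariant system `Rec.Loc.localInvSystem`.

So the tower is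
* `RecTC2 I` : the SAME sum formula for `p = 2` over TOTALLY COMPLEX fields (`U` without elements
  of order `2`).  Sub-tower REC2 / G2 = the p = 2 variant of S55 layer G + block REC, where
  "`p ≠ 2` / `Odd n`" is replaced by "no real place": `infDegProd = 1`, `N_{K/ℚ}(a) > 0`
  (so the sign `ψ̄(-1)` of REC Step A disappears).
* `CycSumOfRecC I` : formal, primary decomposition of the cup class `a ∪ δχ`.
* `RayOfCycSumC I` : the dictionary from `∑_v inv_v (a ∪ δχ) = 0` (double cosets, `ℚ̄_q`) to the
  ideal-theoretic ray statement (primes of `𝓞 K`, Prelude Frobenius elements).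
* `HeckeOfRayC` : the idèle class character of a ray class character.

PROVED here: `artinRay_of_leaves`, `heckeChar_of_leaves`.
All Props are TRUE statements of mathematics (Artin reciprocity, Lang ANT X §2-3, Tate's
chapter VII §3, §10 in Cassels-Froehlich).
-/

set_option autoImplicit false

open IsDedekindDomain NumberField
open Fermat.Agent.S55.G.Rec

noncomputable section

namespace Fermat.Agent.LT.CFT

local notation "Qb" => AlgebraicClosure ℚ
local notation "GQ" => (AlgebraicClosure ℚ ≃ₐ[ℚ] AlgebraicClosure ℚ)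

/-! ## 1. Vocabulary (Mathlib number fields + Prelude Frobenius elements) -/

/-- The absolute Galois group of `K`, embedded in `ℚ̄` by `j`: the elements of `G_ℚ` fixing
`j K` pointwise. -/
def galOf {K : Type} [Field K] (j : K →+* Qb) : Subgroup GQ where
  carrier := {σ | ∀ x : K, σ (j x) = j x}
  one_mem' := fun _ => rfl
  mul_mem' := by
    intro a b ha hb x
    show a (b (j x)) = j x
    rw [hb x, ha x]
  inv_mem' := by
    intro a ha x
    have h := congrArg (a⁻¹ : GQ) (ha x)
    have h2 : (a⁻¹ : GQ) (a (j x)) = j x := AlgEquiv.symm_apply_apply a (j x)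
    rw [h2] at h
    exact h.symm

/-- `K` is totally complex. -/
def TotallyComplex (K : Type) [Field K] [NumberField K] : Prop :=
  ∀ w : InfinitePlace K, w.IsComplex

/-- The valuation subring `A` of `ℚ̄` lies over the finite place `v` of `K` (embedded by `j`). -/
def UnderPlace {K : Type} [Field K] [NumberField K] (j : K →+* Qb)
    (v : HeightOneSpectrum (𝓞 K)) (A : ValuationSubring Qb) : Prop :=
  ∀ x : 𝓞 K, x ∈ v.asIdeal ↔ j (algebraMap (𝓞 K) K x) ∈ A.nonunits

/-- `σ` is a Frobenius element of `G_K` at the finite place `v` of `K`: `σ` fixes `K`, lies in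
the decomposition group of a valuation subring `A` of `ℚ̄` over `v` and acts on the residue field
of `A` by `x ↦ x ^ N(v)` (Prelude `ValuationSubring.IsFrobeniusAt`). -/
def IsFrobAt {K : Type} [Field K] [NumberField K] (j : K →+* Qb)
    (v : HeightOneSpectrum (𝓞 K)) (σ : GQ) : Prop :=
  σ ∈ galOf j ∧ ∃ A : ValuationSubring Qb, UnderPlace j v A ∧
    A.IsFrobeniusAt σ (Nat.card (𝓞 K ⧸ v.asIdeal))

/-- `χ` is a character of finite order of `G_K` (trivial on `Gal(ℚ̄/F)` for a number field `F`). -/
def IsFiniteOrderChar {K : Type} [Field K] (j : K →+* Qb) (χ : ↥(galOf j) →* ℂˣ) : Prop :=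
  ∃ F : IntermediateField ℚ Qb, FiniteDimensional ℚ F ∧
    ∀ σ : ↥(galOf j), (σ : GQ) ∈ F.fixingSubgroup → χ σ = 1

/-- The exponent of the prime `v` in the principal ideal `(α)` (`0` if `α = 0`). -/
def ordAt {K : Type} [Field K] [NumberField K] (v : HeightOneSpectrum (𝓞 K)) (α : 𝓞 K) : ℕ :=
  (Associates.mk v.asIdeal).count (Associates.mk (Ideal.span {α})).factors

/-- **The ray statement for `(K, j, χ)` with modulus `𝔣`**: for every choice `frob` of Frobenius
elements at the primes not dividing `𝔣` and every `α ≡ 1 mod 𝔣`, `α ≠ 0`: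
`∏_v χ(Frob_v) ^ ord_v(α) = 1`. -/
def RayTrivial {K : Type} [Field K] [NumberField K] (j : K →+* Qb) (χ : ↥(galOf j) →* ℂˣ)
    (𝔣 : Ideal (𝓞 K)) : Prop :=
  ∀ frob : HeightOneSpectrum (𝓞 K) → ↥(galOf j),
    (∀ v : HeightOneSpectrum (𝓞 K), ¬ 𝔣 ≤ v.asIdeal → IsFrobAt j v (frob v : GQ)) →
    ∀ α : 𝓞 K, α ≠ 0 → α - 1 ∈ 𝔣 →
      ∏ᶠ v : HeightOneSpectrum (𝓞 K), χ (frob v) ^ ordAt v α = 1

/-! ## 2. The tower Props (consumed by A2, T3, T6/T7) -/

/-- **ARTIN RECIPROCITY, ray form** (Lang ANT X §2 Thm 3): a character of finite order of the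
absolute Galois group of a totally complex number field is trivial on a ray `P_𝔣`. -/
def ArtinRayC : Prop :=
  ∀ (K : Type) [Field K] [NumberField K] (j : K →+* Qb), TotallyComplex K →
    ∀ χ : ↥(galOf j) →* ℂˣ, IsFiniteOrderChar j χ →
      ∃ 𝔣 : Ideal (𝓞 K), 𝔣 ≠ ⊥ ∧ RayTrivial j χ 𝔣

/-- The adèle ring of `K` (the same Mathlib type as `Adl K` of helper556). -/
abbrev Adl (K : Type) [Field K] [NumberField K] : Type := NumberField.AdeleRing (𝓞 K) K

/-- The idèle `z` is supported at the finite place `v`. -/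
def IsIdeleAt {K : Type} [Field K] [NumberField K] (v : HeightOneSpectrum (𝓞 K))
    (z : (Adl K)ˣ) : Prop :=
  (∀ w : InfinitePlace K, ((z : Adl K).1 w) = 1) ∧
    ∀ v' : HeightOneSpectrum (𝓞 K), v' ≠ v → ((z : Adl K).2 v') = 1

/-- `θ` is the Hecke (idèle class) character of `χ`: continuous, trivial on the principal
idèles, and at almost all finite places `v`: trivial on the local units and equal to
`χ(Frob_v)` on the local uniformisers. -/
def IsHeckeCharOf {K : Type} [Field K] [NumberField K] (j : K →+* Qb) (χ : ↥(galOf j) →* ℂˣ)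
    (θ : (Adl K)ˣ →* ℂˣ) : Prop :=
  Continuous θ ∧
  (∀ x : Kˣ, θ (Units.map (algebraMap K (Adl K)).toMonoidHom x) = 1) ∧
  ∃ S : Finset (HeightOneSpectrum (𝓞 K)), ∀ v : HeightOneSpectrum (𝓞 K), v ∉ S →
    ∀ z : (Adl K)ˣ, IsIdeleAt v z →
      (Valued.v ((z : Adl K).2 v) = 1 → θ z = 1) ∧
      (Valued.v ((z : Adl K).2 v) = WithZero.exp (-1 : ℤ) →
        ∀ σ : ↥(galOf j), IsFrobAt j v (σ : GQ) → θ z = χ σ)

/-- **ARTIN RECIPROCITY, idèlic form**: every character of finite order of `G_K`, `K` totally
complex, is the character of a Hecke character of `K`. -/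
def HeckeCharC : Prop :=
  ∀ (K : Type) [Field K] [NumberField K] (j : K →+* Qb), TotallyComplex K →
    ∀ χ : ↥(galOf j) →* ℂˣ, IsFiniteOrderChar j χ →
      ∃ θ : (Adl K)ˣ →* ℂˣ, IsHeckeCharOf j χ θ

/-! ## 3. The middle Props (language of S55 layer G / block REC, on main) -/

/-- `U` contains no element of order `2`: the fixed field of `U` is totally complex
(Artin-Schreier). -/
def NoOrderTwo (U : Subgroup GQ) : Prop := ∀ c : GQ, c ∈ U → c * c = 1 → c = 1

/-- **REC2**: the reciprocity law for the `2`-primary part of `Br(K)`, `K = ℚ̄^U` totally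
complex.  (= `ReciprocitySpec I 2` restricted to `U` without elements of order `2`.) -/
def RecTC2 (I : LocalInvSystem) : Prop :=
  ∀ (U : Subgroup GQ), IsOpenQ U → NoOrderTwo U →
    ∀ x : gBr U, (∃ k : ℕ, 2 ^ k • x = 0) →
      ∀ R : Nat.Primes → Finset GQ, IsPlaceReps U R →
        (Function.support fun q : Nat.Primes => ∑ r ∈ R q, I.invAt q r U x).Finite ∧
          I.sumInv U R x = 0

/-- The sum formula for ALL cup classes `a ∪ δχ` over totally complex fields. -/
def CycSumC (I : LocalInvSystem) : Prop :=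
  ∀ (U : Subgroup GQ), IsOpenQ U → NoOrderTwo U →
    ∀ (n : ℕ), n ≠ 0 → ∀ χ : ↥U →* Multiplicative (ZMod n),
      groupCohomology.IsLevelConstant₁ U.subtype χ → ∀ a : Qbˣ, GFixed U a →
        ∀ R : Nat.Primes → Finset GQ, IsPlaceReps U R →
          (Function.support fun q : Nat.Primes =>
            ∑ r ∈ R q, I.invAt q r U (gcc U n χ a)).Finite ∧
            I.sumInv U R (gcc U n χ a) = 0

/-! ## 4. The leaves of the tower (hypothesis-parametrised) -/

/-- **Leaf PRIM** (formal, ≤ 500 lines): primary decomposition.  `x = a ∪ δχ` is killed by `n`;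
`x = ∑_p m_p • x` with `m_p • x` of `p`-power order; apply the reciprocity law for every `p ∣ n`
(`p` odd: main; `p = 2`: `RecTC2`); `invAt` is additive. -/
def CycSumOfRecC (I : LocalInvSystem) : Prop :=
  (∀ (p : ℕ) [Fact p.Prime], p ≠ 2 → ReciprocitySpec I p) → RecTC2 I → CycSumC I

/-- **Leaf DICT** (the dictionary; to be split by its sub-architect): from the sum formula for
cup classes to the ray statement.  `𝔣` = product of high powers of the primes which are
ramified for `χ` or divide the order `n` of `χ`.  Unramified `v ∤ n`: main `UnramCupSpec` (L3) +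
`CupLocSpec` (K1) give `inv_v = ord_v(α) · χ(Frob_v) / n`; `v ∣ 𝔣`: `α ≡ 1 mod 𝔣` is a local
`n`-th power (Hensel; tame case = main `LocalRootSpec`), so `inv_v = 0` (`CupAddSpec`). -/
def RayOfCycSumC (I : LocalInvSystem) : Prop := CycSumC I → ArtinRayC

/-- **Leaf IDELE** (Lang ANT VII §4; weak approximation): the idèle class character of a ray class
character. -/
def HeckeOfRayC : Prop := ArtinRayC → HeckeCharC

/-! ## 5. The top -/

/-- The local invariant system of main. -/
abbrev Iloc : LocalInvSystem := Loc.localInvSystem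

/-- **TOWER TOP, ray form.** -/
theorem artinRay_of_leaves (hrec2 : RecTC2 Iloc) (hprim : CycSumOfRecC Iloc)
    (hdict : RayOfCycSumC Iloc) : ArtinRayC :=
  hdict (hprim (fun p _ hp2 => reciprocityFull Iloc p hp2) hrec2)

/-- **TOWER TOP, idèlic form.** -/
theorem heckeChar_of_leaves (hrec2 : RecTC2 Iloc) (hprim : CycSumOfRecC Iloc)
    (hdict : RayOfCycSumC Iloc) (hid : HeckeOfRayC) : HeckeCharC :=
  hid (artinRay_of_leaves hrec2 hprim hdict)

end Fermat.Agent.LT.CFT

end
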