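import Fermat.Agent.LT.CFT.SpecC
import Fermat.Agent.LT.CFT.H341.Prim
import Fermat.Agent.LT.CFT.H1.Closed
import Fermat.Agent.LT.CFT.H701.TCBridge
import Fermat.Agent.LT.CFT.H681.Embed
import Fermat.Agent.LT.CFT.H681.FrobIndep
import Fermat.Agent.LT.CFT.H681.RaySum
import Fermat.Agent.LT.CFT.H953.CharFactor
import Fermat.Agent.LT.CFT.H5.Entry
import Fermat.Agent.LT.CFT.H861.HeckeOfRay

/-!
# Row LT, tower CFT (architect helper53), OFF-MAIN: THE TOWER IS CLOSED

**`artinRay : ArtinRayC`** and **`heckeChar : HeckeCharC`**, UNCONDITIONAL (statements: the frozen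
`LT/CFT/Spec.lean`): Artin reciprocity for every character of finite order of the absolute
Galois group of a TOTALLY COMPLEX number field, in ray form and in idèlic (Hecke character)
form.

Route C (cohomological), every file a byte copy of its owner's file, rebuilt here in ONE
closure:

* REC2 `H1.reciprocityTCClosed` — helper1 (Steps A', B', C', L5', G6), helper421 (HP2),
  helper119 (layer G), helper701 (adapter `isTC_of_noOrderTwo701`);
* PRIM `H341.cycSumOfRec_Iloc341` — helper341;
* DICT `H681.rayOfCycSum_of_leaves` — helper681 (cut, EmbedC, FrobIndepC, RayOfArtinSumC),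
  helper953 (CharFactorC), helper5 + helper701 (EntryC);
* IDELE `H861.heckeOfRay861` — helper861 (second proofs: helper769, helper618).

The ideal-theoretic route L (`SpecL.lean`, running top `Top.lean`) is independent of this file.
-/

set_option autoImplicit false

noncomputable section

namespace Fermat.Agent.LT.CFT

/-- The adapter `NoOrderTwo → H1.IsTC` (helper701). -/
theorem tcOfNoOrderTwo_closed : TCOfNoOrderTwoC :=
  fun U hU hno => H701.isTC_of_noOrderTwo701 U hU hno

/-- **REC2**, closed: reciprocity for the `2`-primary Brauer group, totally complex fields. -/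
theorem recTC2_closed : RecTC2 Iloc :=
  recTC2_of_h1 tcOfNoOrderTwo_closed Iloc (H1.reciprocityTCClosed Iloc)

/-- **DICT**, closed. -/
theorem rayOfCycSum_closed : RayOfCycSumC Iloc :=
  H681.rayOfCycSum_of_leaves H953.charFactor953 H5.entryC5 H681.embed681 H681.frobIndep681
    H681.rayOfArtinSum681

/-- **ARTIN RECIPROCITY, ray form, totally complex base: CLOSED.** -/
theorem artinRay : ArtinRayC :=
  artinRay_of_leaves recTC2_closed H341.cycSumOfRec_Iloc341 rayOfCycSum_closed

/-- **ARTIN RECIPROCITY, idèlic form (Hecke characters), totally complex base: CLOSED.** -/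
theorem heckeChar : HeckeCharC :=
  H861.heckeOfRay861 artinRay

end Fermat.Agent.LT.CFT

end
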