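import Mathlib
import Fermat.Agent.LT.CFT.Spec
import Fermat.Agent.S55.G.FIClosedH604
import Fermat.Agent.S55.G.SI777.Final

/-!
# Row LT, tower CFT (architect helper53), OFF-MAIN: the HASSE NORM THEOREM (consumer: T6, helper22)

`HasseNormC` : `L/K` cyclic, `K` TOTALLY COMPLEX, `x ∈ Kˣ` a local norm at every finite place
(adèle-free approximation form `IsLocalNormAt`) `⟹` `x` is a norm from `L`.
(Real places are NOT covered: over a totally complex base there is no condition at infinity.)

    HasseNormC  ⟸  HasseOfVanishC (dictionary)  +  CycVanishC (`H¹(G, C_S(L)) = 0`)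

`CycVanishC` is the cyclic layer of S55 layer G for a cyclic group of ANY order over a totally
complex base: first inequality (main `G.FI.firstIneq_card_of`, `infDegProd = 1`: helper713
`FirstIneqTC`) + second inequality (main `H963.Br.indexBound`, any `n`, + descent `DescH773` +
`T.H895.cyclicCard`, as in `G.SI777.secondInequality_of` without `index_dvd_prime`).
-/

set_option autoImplicit false

open IsDedekindDomain NumberField CategoryTheory groupCohomology
open Fermat.Agent.S55.G

noncomputable section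

namespace Fermat.Agent.LT.CFT

/-- `x ∈ K` is a norm from `L` in the completion of `K` at the prime `v`, in approximation form:
for every `N`, `x = N_{L/K}(y) · (a / b)` with `y ∈ Lˣ`, `a, b ∈ 𝓞 K`, `b ∉ v`, `a ≡ b mod v ^ N`
(`x` lies in the closure of `N(Lˣ)` in `K_vˣ`, which is the group of local norms). -/
def IsLocalNormAt (K L : Type) [Field K] [NumberField K] [Field L] [NumberField L] [Algebra K L]
    (v : HeightOneSpectrum (𝓞 K)) (x : K) : Prop :=
  ∀ N : ℕ, ∃ (y : L) (a b : 𝓞 K), y ≠ 0 ∧ b ∉ v.asIdeal ∧ a - b ∈ v.asIdeal ^ N ∧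
    x * (b : K) = Algebra.norm K y * (a : K)

/-- **HASSE NORM THEOREM, cyclic extensions of totally complex fields** (Lang ANT IX §4 Thm 4;
Cassels-Fröhlich VII §9.6). -/
def HasseNormC : Prop :=
  ∀ (K L : Type) [Field K] [NumberField K] [Field L] [NumberField L] [Algebra K L]
    [IsGalois K L], TotallyComplex K → IsCyclic (L ≃ₐ[K] L) →
    ∀ x : K, x ≠ 0 → (∀ v : HeightOneSpectrum (𝓞 K), IsLocalNormAt K L v x) →
      ∃ y : L, Algebra.norm K y = x

/-- **Leaf CYC-VANISH** (the cyclic layer, any order, totally complex base): `H¹(G, C_S(L)) = 0`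
and `|H²(G, C_S(L))| = |G|`. -/
def CycVanishC : Prop :=
  ∀ (S : Finset Nat.Primes) (G L : Type) [Group G] [Finite G] [IsCyclic G] [Field L]
    [NumberField L] [MulSemiringAction G L] [FaithfulSMul G L]
    [IsTotallyComplex (FixedPoints.subfield G L)],
    S.Nonempty → IsUnramOut S G L →
      Limits.IsZero (groupCohomology (CRep S G L) 1) ∧
        Nat.card (groupCohomology (CRep S G L) 2) = Nat.card G

/-- **Leaf HASSE-DICT**: from `H¹(G, C_S(L)) = 0` to the norm theorem.  (i) `G = ⟨g⟩`,
`0 → Lˣ → J_S(L) × Div^S(L) → C_S(L) → 0` exact (main `G-SES`): if `ker N = im (1 - g)` on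
`C_S(L)` then `Kˣ ∩ N(J_S × Div^S) ⊆ N(Lˣ)` (diagram chase, 50 lines; main `Herbrand`
`card_H1_eq_h1`); (ii) `S` ⊇ ramification: `IsLocalNormAt` at `v ∤ S` gives `f_v ∣ ord_v(x)`,
so the divisor of `x` outside `S` is a norm from `Div^S(L)`; (iii) `IsLocalNormAt` at the
`v ∣ S` gives `x ∈ N((L ⊗ ℚ_S)ˣ)`: the norm group contains `1 + P_S ^ N` (main `H963.BrHensel`)
and `L` is dense in `L ⊗ ℚ_S` (main `exists_approx_AS`). -/
def HasseOfVanishC : Prop := CycVanishC → HasseNormC

/-- **TOWER TOP (Hasse norm theorem).** -/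
theorem hasseNorm_of_leaves (hv : CycVanishC) (hd : HasseOfVanishC) : HasseNormC := hd hv

end Fermat.Agent.LT.CFT

end
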