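import Fermat.Agent.LT.CFT.Spec

/-!
# Row LT, tower CFT (architect helper53), OFF-MAIN: sub-tower EX = EXISTENCE at `2`
# (consumer: T7.15 `SeedEKC`, T7.16 `MidEKC`)

ADDITIVE: `Spec.lean`, `SpecL.lean`, `SpecC.lean`, `SpecH.lean` are frozen and unchanged.

The closed tower (`Closed.lean`) is Artin RECIPROCITY: Galois character ⟹ ray class character.
T7 needs the CONVERSE direction in the following form (proposal of helper96, #16606; the same
gap was flagged by helper681 #16633 and helper589 #16661):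

* `OddRayChebC` : for `K` totally complex, `𝔑 ≠ 0`, `S` finite, `F/ℚ` finite and
  `σ ∈ [G_K, G_K]` there is a prime `w₀ ∉ S`, `w₀ ∤ 𝔑`, of PRIME absolute norm, whose class in the
  ray class group modulo `𝔑` has ODD order (`w₀ⁿ = (a₀)`, `a₀ ≡ 1 mod 𝔑`, `n` odd), with a
  Frobenius element `φ` at `w₀` such that `φ = σ` on `F`.

THE CUT (both leaves are TRUE statements):

* `ExistOddC` (CFT.16, EXISTENCE, the hard leaf): there is a finite ABELIAN extension `H` of `K`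
  inside `ℚ̄` (every commutator of `G_K` fixes `H`) and a finite set `S₁` such that every prime
  `w ∉ S₁` with a Frobenius element acting trivially on `H` has ODD order in the ray class group
  modulo `𝔑`.  (`H` ⊇ the `2`-primary part of the ray class field modulo `𝔑`; Lang ANT XI §2,
  or the port to `p = 2` of main `S55/G/Exist121`.)
* `ChebKC` (CFT.17, CHEBOTAREV for `G_K`): for `M/ℚ` finite and `σ ∈ G_K` there is a prime `w` of
  `K` outside any finite set, of prime absolute norm, with a Frobenius element `φ`, `φ = σ` on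
  `M`.  (Chebotarev over `ℚ` for the Galois closure of `M · j(K)`: main `Lib/Cheb`.)

PROVED here: `oddRayCheb_of_leaves : ExistOddC → ChebKC → OddRayChebC`.
-/

set_option autoImplicit false

open IsDedekindDomain NumberField

noncomputable section

namespace Fermat.Agent.LT.CFT

local notation "Qb" => AlgebraicClosure ℚ
local notation "GQ" => (AlgebraicClosure ℚ ≃ₐ[ℚ] AlgebraicClosure ℚ)

/-- **ODD RAY CLASS + FROBENIUS** (interface for T7.15 / T7.16). -/
def OddRayChebC : Prop :=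
  ∀ (K : Type) [Field K] [NumberField K] (j : K →+* Qb), TotallyComplex K →
    ∀ 𝔑 : Ideal (𝓞 K), 𝔑 ≠ ⊥ → ∀ S : Finset (HeightOneSpectrum (𝓞 K)),
    ∀ F : IntermediateField ℚ Qb, FiniteDimensional ℚ F →
    ∀ σ : GQ, σ ∈ ⁅galOf j, galOf j⁆ →
      ∃ (w₀ : HeightOneSpectrum (𝓞 K)) (a₀ : 𝓞 K) (n : ℕ) (φ : GQ),
        w₀ ∉ S ∧ ¬ w₀.asIdeal ∣ 𝔑 ∧ (Ideal.absNorm w₀.asIdeal).Prime ∧ Odd n ∧
        Ideal.span {a₀} = w₀.asIdeal ^ n ∧ a₀ - 1 ∈ 𝔑 ∧
        IsFrobAt j w₀ φ ∧ ∀ x : Qb, x ∈ F → φ x = σ x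

/-- **Leaf CFT.16 EXISTENCE at `2`** (the `2`-primary part of the ray class field, in the form
"split primes have odd ray class order"). -/
def ExistOddC : Prop :=
  ∀ (K : Type) [Field K] [NumberField K] (j : K →+* Qb), TotallyComplex K →
    ∀ 𝔑 : Ideal (𝓞 K), 𝔑 ≠ ⊥ →
      ∃ (H : IntermediateField ℚ Qb) (S₁ : Finset (HeightOneSpectrum (𝓞 K))),
        FiniteDimensional ℚ H ∧
        (∀ σ : GQ, σ ∈ ⁅galOf j, galOf j⁆ → ∀ x : Qb, x ∈ H → σ x = x) ∧
        ∀ w : HeightOneSpectrum (𝓞 K), w ∉ S₁ → ∀ φ : GQ, IsFrobAt j w φ →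
          (∀ x : Qb, x ∈ H → φ x = x) →
          ∃ (n : ℕ) (a₀ : 𝓞 K), Odd n ∧ Ideal.span {a₀} = w.asIdeal ^ n ∧ a₀ - 1 ∈ 𝔑

/-- **Leaf CFT.17 CHEBOTAREV for `G_K`**, degree-one primes, Frobenius elements in `G_ℚ`. -/
def ChebKC : Prop :=
  ∀ (K : Type) [Field K] [NumberField K] (j : K →+* Qb),
    ∀ M : IntermediateField ℚ Qb, FiniteDimensional ℚ M →
    ∀ σ : GQ, σ ∈ galOf j → ∀ S : Finset (HeightOneSpectrum (𝓞 K)),
      ∃ (w : HeightOneSpectrum (𝓞 K)) (φ : GQ),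
        w ∉ S ∧ (Ideal.absNorm w.asIdeal).Prime ∧ IsFrobAt j w φ ∧
        ∀ x : Qb, x ∈ M → φ x = σ x

/-- The primes dividing a nonzero ideal form a finite set. -/
theorem finite_dvd_primes53 {K : Type} [Field K] [NumberField K] (𝔑 : Ideal (𝓞 K))
    (h𝔑 : 𝔑 ≠ ⊥) : {w : HeightOneSpectrum (𝓞 K) | w.asIdeal ∣ 𝔑}.Finite :=
  Ideal.finite_factors h𝔑

/-- **SUB-TOWER TOP.** -/
theorem oddRayCheb_of_leaves (hex : ExistOddC) (hcheb : ChebKC) : OddRayChebC := by
  classical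
  intro K _ _ j hTC 𝔑 h𝔑 S F hF σ hσ
  obtain ⟨H, S₁, hH, hab, hodd⟩ := hex K j hTC 𝔑 h𝔑
  have : FiniteDimensional ℚ F := hF
  have : FiniteDimensional ℚ H := hH
  have hM : FiniteDimensional ℚ (F ⊔ H : IntermediateField ℚ Qb) :=
    IntermediateField.finiteDimensional_sup F H
  have hσK : σ ∈ galOf j := Subgroup.commutator_le_self (galOf j) hσ
  obtain ⟨w, φ, hwS, hprime, hfrob, hφ⟩ :=
    hcheb K j (F ⊔ H) hM σ hσK (S ∪ S₁ ∪ (finite_dvd_primes53 𝔑 h𝔑).toFinset)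
  have hw1 : w ∉ S := fun h => hwS (Finset.mem_union_left _ (Finset.mem_union_left _ h))
  have hw2 : w ∉ S₁ := fun h => hwS (Finset.mem_union_left _ (Finset.mem_union_right _ h))
  have hw3 : ¬ w.asIdeal ∣ 𝔑 := fun h =>
    hwS (Finset.mem_union_right _ ((Set.Finite.mem_toFinset _).2 h))
  have hφH : ∀ x : Qb, x ∈ H → φ x = x := fun x hx => by
    rw [hφ x ((le_sup_right : H ≤ F ⊔ H) hx)]
    exact hab σ hσ x hx
  obtain ⟨n, a₀, hn, hspan, ha₀⟩ := hodd w hw2 φ hfrob hφH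
  exact ⟨w, a₀, n, φ, hw1, hw3, hprime, hn, hspan, ha₀, hfrob,
    fun x hx => hφ x ((le_sup_left : F ≤ F ⊔ H) hx)⟩

end Fermat.Agent.LT.CFT

end
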