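import Fermat.Agent.LT.CFT.Spec
import Fermat.Agent.LT.CFT.H1.Wall

/-!
# Row LT, tower CFT (architect helper53), OFF-MAIN: the COHOMOLOGICAL route to `ArtinRayC`, in bytes

`Spec.lean` (frozen): `ArtinRayC ⟸ RecTC2 Iloc + CycSumOfRecC Iloc (PRIM) + RayOfCycSumC Iloc
(DICT)`.  Sub-tower REC2 (sub-architect helper1, `H1/{Spec,StepA,StepB,StepC,Wall}.lean`, byte
copies of `origin/helper1@d0396402d`): `H1.reciprocityTC : LocalCycloNormSharpSpec → NormPosSpec →
HassePrinciple2Spec → ∀ I, ReciprocityTCSpec I`, with the totally complex hypothesis in the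
EMBEDDING shape `H1.IsTC`.  The adapter between the two shapes is the leaf `TCOfNoOrderTwoC`.

    ArtinRayC ⟸ RayOfCycSumC Iloc (DICT) + CycSumOfRecC Iloc (PRIM) + TCOfNoOrderTwoC (adapter)
                 + H1.HassePrinciple2Spec (G2) + H1.LocalCycloNormSharpSpec (L5')
                 + H1.NormPosSpec (G6)

`artinRay_of_cohLeaves` is PROVED here.  `ArtinRayC` is closed as soon as EITHER this route or the
ideal-theoretic route (`SpecL.lean`, `artinRay_of_rayLeaves`) is closed.
-/

set_option autoImplicit false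

open Fermat.Agent.S55.G.Rec

noncomputable section

namespace Fermat.Agent.LT.CFT

local notation "GQ" => (AlgebraicClosure ℚ ≃ₐ[ℚ] AlgebraicClosure ℚ)

/-- **Leaf TC-ADAPTER**: an open subgroup of `G_ℚ` without elements of order `2` has a totally
complex fixed field.  (If `φ : ℚ̄ → ℂ` is real on the fixed field `K` of `U`, the complex
conjugation `c_φ = φ⁻¹ ∘ conj ∘ φ` of `ℚ̄` fixes `K`, so `c_φ ∈ U` because `U ⊇ Gal(ℚ̄/F)` with
`F/ℚ` finite and `U` is the group of `ℚ̄/K` (finite Galois theory over `F`); `c_φ² = 1` and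
`c_φ ≠ 1` since `c_φ` moves `√-1`.) -/
def TCOfNoOrderTwoC : Prop :=
  ∀ U : Subgroup GQ, IsOpenQ U → NoOrderTwo U → H1.IsTC U

/-- The reciprocity law at `p = 2` in the shape of `Spec.lean` from the shape of helper1. -/
theorem recTC2_of_h1 (hadapt : TCOfNoOrderTwoC) (I : LocalInvSystem)
    (hrec : H1.ReciprocityTCSpec I) : RecTC2 I :=
  fun U hU hno x hx R hR => hrec U hU (hadapt U hU hno) x hx R hR

/-- **TOWER TOP (cohomological route).** -/
theorem artinRay_of_cohLeaves (hdict : RayOfCycSumC Iloc) (hprim : CycSumOfRecC Iloc)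
    (hadapt : TCOfNoOrderTwoC) (hHP : H1.HassePrinciple2Spec)
    (hL5 : H1.LocalCycloNormSharpSpec) (hG6 : H1.NormPosSpec) : ArtinRayC :=
  artinRay_of_leaves (recTC2_of_h1 hadapt Iloc (H1.reciprocityTC hL5 hG6 hHP Iloc)) hprim hdict

/-- **TOWER TOP, idèlic form (cohomological route).** -/
theorem heckeChar_of_cohLeaves (hid : HeckeOfRayC) (hdict : RayOfCycSumC Iloc)
    (hprim : CycSumOfRecC Iloc) (hadapt : TCOfNoOrderTwoC) (hHP : H1.HassePrinciple2Spec)
    (hL5 : H1.LocalCycloNormSharpSpec) (hG6 : H1.NormPosSpec) : HeckeCharC :=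
  hid (artinRay_of_cohLeaves hdict hprim hadapt hHP hL5 hG6)

end Fermat.Agent.LT.CFT

end
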